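import Fermat.Agent.S55.A.LinAlg

/-!
# S56 / GW / Abs : the abstract counting lemma      key `S56/GW-ABS` (~80 lines; Mathlib + `S55/A/LinAlg.lean` (`LA.card_dual`))

`lam : X → A`, `P : A × Y → 𝔽_p`, `P (lam x) y = 0`.  `N = P.flip.ker = {y | ∀ a, P a y = 0}`.
`Y ⧸ N ↪ {l : A →+ ZMod p | l ∘ lam = 0} ≃ (A ⧸ lam.range →+ ZMod p)`, of cardinality `#A / #lam.range` (`LA.card_dual`, `AddSubgroup.card_eq_card_quotient_mul_card_addSubgroup`),
`#lam.range = #X / #lam.ker` (`QuotientAddGroup.quotientKerEquivRange`).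
MODEL: `S55.D.isoAux_card` in `S55/D/DualB.lean` is exactly `#(V ⧸ Λ.ker) * #f.range ≤ #W` (copy its proof or import that file).
-/

set_option autoImplicit false

namespace Fermat.Agent.S56

theorem abs_count {p : ℕ} [Fact p.Prime] {X A Y : Type*} [AddCommGroup X] [AddCommGroup A]
    [AddCommGroup Y] [Finite X] [Finite A] [Finite Y] (hA : ∀ a : A, p • a = 0) (lam : X →+ A)
    (P : A →+ Y →+ ZMod p) (horth : ∀ x y, P (lam x) y = 0) :
    Nat.card X * Nat.card Y ≤ Nat.card lam.ker * Nat.card P.flip.ker * Nat.card A := by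
  have hQ : ∀ x : A ⧸ lam.range, p • x = 0 := by
    intro x
    obtain ⟨w, rfl⟩ := QuotientAddGroup.mk_surjective x
    rw [← QuotientAddGroup.mk_nsmul, hA]
    rfl
  have h1 : Nat.card (Y ⧸ P.flip.ker) ≤ Nat.card (A ⧸ lam.range) := by
    rw [← S55.LA.card_dual hQ,
      Nat.card_congr (QuotientAddGroup.quotientKerEquivRange P.flip).toEquiv]
    refine Nat.card_le_card_of_injective
      (fun l : P.flip.range => QuotientAddGroup.lift lam.range l.1 (by
        rintro _ ⟨x, rfl⟩
        obtain ⟨φ, hφ⟩ := l.2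
        rw [← hφ]
        exact horth x φ)) ?_
    intro l l' hll
    refine Subtype.ext (AddMonoidHom.ext fun w => ?_)
    exact DFunLike.congr_fun hll (QuotientAddGroup.mk w)
  have h2 : Nat.card (Y ⧸ P.flip.ker) * Nat.card lam.range ≤ Nat.card A :=
    calc Nat.card (Y ⧸ P.flip.ker) * Nat.card lam.range
        ≤ Nat.card (A ⧸ lam.range) * Nat.card lam.range := Nat.mul_le_mul_right _ h1
      _ = Nat.card A := (AddSubgroup.card_eq_card_quotient_mul_card_addSubgroup _).symm
  have hX : Nat.card X = Nat.card lam.range * Nat.card lam.ker := by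
    rw [AddSubgroup.card_eq_card_quotient_mul_card_addSubgroup lam.ker,
      Nat.card_congr (QuotientAddGroup.quotientKerEquivRange lam).toEquiv]
  have hY : Nat.card Y = Nat.card (Y ⧸ P.flip.ker) * Nat.card P.flip.ker :=
    AddSubgroup.card_eq_card_quotient_mul_card_addSubgroup _
  calc Nat.card X * Nat.card Y
      = Nat.card lam.ker * Nat.card P.flip.ker *
          (Nat.card (Y ⧸ P.flip.ker) * Nat.card lam.range) := by
        rw [hX, hY]
        ring
    _ ≤ _ := Nat.mul_le_mul_left _ h2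

end Fermat.Agent.S56
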