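import Fermat.Agent.S56.GW.LocPair
import Fermat.Agent.S56.GW.Abs

/-!
# S56 / GW / Main : the easy half of the Greenberg-Wiles formula      key `S56/GW-MAIN` (~250 lines)

`T ∋ p` finite, `ρ` a finite `p`-torsion `T`-smooth module, `ρ' = dualRho (cycloChar p) ρ`, `L v ≤ H¹(D_v, A)` finite (`v ∈ T`).
  `#Sel_L(A) * #H¹_T(A') ≤ #Ш¹_T(A) * #Sel_{L^⊥}(A') * ∏_{v ∈ T} #L_v`.
PROOF.  `abs_count` with `X = ↥(SelG ρ T T L)`, `A = ∀ v : ↥T, ↥(L v)`, `Y = H1 (lvlS T) ρ'`, `lam x = (loc1 ρ v x)_v`,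
`P a y = ∑ v : ↥T, lp dat hMQ v (a v) (loc1 ρ' v (infl1 T ρ' y))`.
* `X` is finite: `lam.ker` injects into `Sha1S T ρ` (`x = infl1 T ρ x₀`, `x₀ ∈ Sha1S`; `S55.D.infl1_injective`), `A` is finite (`Finite.of_injective` into `lam.ker`-cosets, or `AddSubgroup`/`Nat.card` argument:
  `X ⧸ lam.ker ≃ lam.range` finite and `lam.ker` finite ⟹ `X` finite).
* `horth` : `lp_recip dat hMQ x (infl1 T ρ' y)`; the terms with `v ∉ T` vanish by `lp_ur` (`S55.D.mem_range_infl1_iff T _ smooth _` gives `loc1 .. ∈ H1ur` for both); `finsum_eq_sum_of_support_subset` / `finsum_eq_finset_sum_of_support_subset`, `Finset.sum_coe_sort`.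
* `#lam.ker ≤ #Sha1S T ρ`.
* `#P.flip.ker ≤ #SelG ρ' T T (perp ..)` : `y ↦ infl1 T ρ' y` is injective and maps `P.flip.ker` into `SelG`: test with `a = Pi.single v x` (`x ∈ L v`).
* `#A = ∏ v ∈ T, #L v` (`Nat.card_pi`, `Finset.prod_coe_sort`; as in `S55.D.iso_ineq`).   `p • a = 0` : `S55.D.isoAux_nsmul_H1`.
-/

set_option autoImplicit false

open Fermat.Agent.S53 Fermat.Agent.S55 Fermat.Agent.S55.D ExtCitation

noncomputable section

namespace Fermat.Agent.S56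

variable {p : ℕ} [Fact p.Prime] {A : Type} [AddCommGroup A] {ρ : GQ →* AddMonoid.End A}

/-- the localisation map of `gw_ineq` -/
def gwLam (T : Finset Nat.Primes) (L : LocCond ρ) :
    ↥(SelG ρ T T L) →+ (∀ v : ↥T, ↥(L v.1)) :=
  AddMonoidHom.mk' (fun x v => ⟨loc1 ρ v.1 x.1, x.2.2 v.1 v.2⟩) (fun x y => by
    funext v
    apply Subtype.ext
    show loc1 ρ v.1 (x.1 + y.1) = loc1 ρ v.1 x.1 + loc1 ρ v.1 y.1
    rw [map_add])

theorem gwLam_apply (T : Finset Nat.Primes) (L : LocCond ρ) (x : ↥(SelG ρ T T L)) (v : ↥T) :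
    ((gwLam T L x v : ↥(L v.1)) : H1 (lvlD v.1) (rv Dq ρ v.1)) = loc1 ρ v.1 x.1 := rfl

/-- one term of the pairing of `gw_ineq` -/
def gwP1 (dat : Datum p lvlQ (cycloChar p) Dq) (hMQ : FinMod p lvlQ ρ) (T : Finset Nat.Primes)
    (L : LocCond ρ) (v : ↥T) :
    (∀ v : ↥T, ↥(L v.1)) →+ H1 (lvlS T) (dualRho (cycloChar p) ρ) →+ ZMod p :=
  AddMonoidHom.compl₂
    ((lp dat hMQ v.1).comp ((L v.1).subtype.comp (Pi.evalAddMonoidHom (fun v : ↥T => ↥(L v.1)) v)))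
    ((loc1 (dualRho (cycloChar p) ρ) v.1).comp (infl1 T (dualRho (cycloChar p) ρ)))

theorem gwP1_apply (dat : Datum p lvlQ (cycloChar p) Dq) (hMQ : FinMod p lvlQ ρ)
    (T : Finset Nat.Primes) (L : LocCond ρ) (v : ↥T) (a : ∀ v : ↥T, ↥(L v.1))
    (y : H1 (lvlS T) (dualRho (cycloChar p) ρ)) :
    gwP1 dat hMQ T L v a y = lp dat hMQ v.1 (a v : H1 (lvlD v.1) (rv Dq ρ v.1))
      (loc1 (dualRho (cycloChar p) ρ) v.1 (infl1 T (dualRho (cycloChar p) ρ) y)) := rfl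

/-- the pairing of `gw_ineq` -/
def gwP (dat : Datum p lvlQ (cycloChar p) Dq) (hMQ : FinMod p lvlQ ρ) (T : Finset Nat.Primes)
    (L : LocCond ρ) :
    (∀ v : ↥T, ↥(L v.1)) →+ H1 (lvlS T) (dualRho (cycloChar p) ρ) →+ ZMod p :=
  ∑ v : ↥T, gwP1 dat hMQ T L v

theorem gwP_apply (dat : Datum p lvlQ (cycloChar p) Dq) (hMQ : FinMod p lvlQ ρ)
    (T : Finset Nat.Primes) (L : LocCond ρ) (a : ∀ v : ↥T, ↥(L v.1))
    (y : H1 (lvlS T) (dualRho (cycloChar p) ρ)) :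
    gwP dat hMQ T L a y = ∑ v : ↥T, lp dat hMQ v.1 (a v : H1 (lvlD v.1) (rv Dq ρ v.1))
      (loc1 (dualRho (cycloChar p) ρ) v.1 (infl1 T (dualRho (cycloChar p) ρ) y)) := by
  rw [gwP, AddMonoidHom.finsetSum_apply, AddMonoidHom.finsetSum_apply]
  exact Finset.sum_congr rfl fun v _ => gwP1_apply dat hMQ T L v a y

theorem gw_orth (dat : Datum p lvlQ (cycloChar p) Dq) (hMQ : FinMod p lvlQ ρ)
    {T : Finset Nat.Primes} (hpT : pPrime p ∈ T) (hM : FinMod p (lvlS T) ρ) (L : LocCond ρ)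
    (x : ↥(SelG ρ T T L)) (y : H1 (lvlS T) (dualRho (cycloChar p) ρ)) :
    gwP dat hMQ T L (gwLam T L x) y = 0 := by
  have hsm' : Smooth (lvlS T) (dualRho (cycloChar p) ρ) :=
    (hM.dual (smooth_lvlS_rhoT p hpT)).smooth
  rw [gwP_apply]
  have h1 := lp_recip dat hMQ x.1 (infl1 T (dualRho (cycloChar p) ρ) y)
  rw [finsum_eq_sum_of_support_subset (s := T)] at h1
  · rw [← h1, ← Finset.sum_coe_sort T (fun v => lp dat hMQ v (loc1 ρ v x.1)
      (loc1 (dualRho (cycloChar p) ρ) v (infl1 T (dualRho (cycloChar p) ρ) y)))]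
    exact Finset.sum_congr rfl fun v _ => by rw [gwLam_apply]
  · intro v hv
    by_contra hvT
    apply hv
    have hvT' : v ∉ T := hvT
    obtain ⟨x₀, hx₀⟩ := x.2.1
    exact lp_ur dat hMQ hpT hM hvT'
      ((mem_range_infl1_iff T ρ hM.smooth x.1).1 ⟨x₀, hx₀⟩ v hvT')
      ((mem_range_infl1_iff T _ hsm' _).1 ⟨y, rfl⟩ v hvT')

theorem gw_kerLam (T : Finset Nat.Primes) (L : LocCond ρ) (hsha : Finite (Sha1S T ρ)) :
    Finite ↥(gwLam T L).ker ∧ Nat.card ↥(gwLam T L).ker ≤ Nat.card (Sha1S T ρ) := by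
  have hex : ∀ x : ↥(gwLam T L).ker, ∃ x₀ : H1 (lvlS T) ρ, infl1 T ρ x₀ = x.1.1 :=
    fun x => x.1.2.1
  choose j₀ hj₀ using hex
  have hj₀' : ∀ x : ↥(gwLam T L).ker, j₀ x ∈ Sha1S T ρ := by
    intro x q hq
    rw [hj₀]
    have h1 : gwLam T L x.1 = 0 := x.2
    have h2 := congrArg Subtype.val (congrFun h1 ⟨q, hq⟩)
    exact h2
  have hjinj : Function.Injective
      (fun x : ↥(gwLam T L).ker => (⟨j₀ x, hj₀' x⟩ : ↥(Sha1S T ρ))) := by
    intro x y hxy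
    have h1 : j₀ x = j₀ y := congrArg Subtype.val hxy
    apply Subtype.ext
    apply Subtype.ext
    rw [← hj₀, ← hj₀, h1]
  exact ⟨Finite.of_injective _ hjinj, Nat.card_le_card_of_injective _ hjinj⟩

theorem gw_kerP (dat : Datum p lvlQ (cycloChar p) Dq) (hMQ : FinMod p lvlQ ρ)
    (T : Finset Nat.Primes) (L : LocCond ρ)
    (hfin' : Finite (H1 (lvlS T) (dualRho (cycloChar p) ρ))) :
    Nat.card ↥(gwP dat hMQ T L).flip.ker ≤
      Nat.card (SelG (dualRho (cycloChar p) ρ) T T (fun v => perp dat hMQ v (L v))) := by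
  classical
  have hk : ∀ y : ↥(gwP dat hMQ T L).flip.ker, infl1 T (dualRho (cycloChar p) ρ) y.1 ∈
      SelG (dualRho (cycloChar p) ρ) T T (fun v => perp dat hMQ v (L v)) := by
    intro y
    refine ⟨⟨y.1, rfl⟩, fun v hv => ?_⟩
    rw [mem_perp]
    intro x hx
    have h1 : (gwP dat hMQ T L).flip y.1 = 0 := y.2
    have h2 : gwP dat hMQ T L (Pi.single (M := fun v : ↥T => ↥(L v.1)) (⟨v, hv⟩ : ↥T)
        (⟨x, hx⟩ : ↥(L v))) y.1 = 0 :=
      DFunLike.congr_fun h1 (Pi.single (M := fun v : ↥T => ↥(L v.1)) (⟨v, hv⟩ : ↥T)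
        (⟨x, hx⟩ : ↥(L v)))
    rw [gwP_apply, Finset.sum_eq_single (⟨v, hv⟩ : ↥T), Pi.single_eq_same] at h2
    · exact h2
    · intro v' _ hne
      rw [Pi.single_eq_of_ne hne]
      show lp dat hMQ v'.1 0 _ = 0
      rw [map_zero]
      rfl
    · exact fun h' => absurd (Finset.mem_univ _) h'
  have hkinj : Function.Injective (fun y : ↥(gwP dat hMQ T L).flip.ker =>
      (⟨infl1 T (dualRho (cycloChar p) ρ) y.1, hk y⟩ :
        ↥(SelG (dualRho (cycloChar p) ρ) T T (fun v => perp dat hMQ v (L v))))) := by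
    intro y y' hyy
    exact Subtype.ext (infl1_injective T _ (congrArg Subtype.val hyy))
  have : Finite ↥(SelG (dualRho (cycloChar p) ρ) T T (fun v => perp dat hMQ v (L v))) := by
    have hs : ((SelG (dualRho (cycloChar p) ρ) T T (fun v => perp dat hMQ v (L v)) :
        AddSubgroup _) : Set (H1 lvlQ (dualRho (cycloChar p) ρ))).Finite :=
      (Set.finite_range (infl1 T (dualRho (cycloChar p) ρ))).subset (fun z hz => hz.1)
    exact hs.to_subtype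
  exact Nat.card_le_card_of_injective _ hkinj

theorem gw_ineq (dat : Datum p lvlQ (cycloChar p) Dq) (hMQ : FinMod p lvlQ ρ)
    {T : Finset Nat.Primes} (hpT : pPrime p ∈ T) (hM : FinMod p (lvlS T) ρ) (L : LocCond ρ)
    (hLfin : ∀ v ∈ T, Finite (L v)) (hfin' : Finite (H1 (lvlS T) (dualRho (cycloChar p) ρ)))
    (hsha : Finite (Sha1S T ρ)) :
    Finite (SelG ρ T T L) ∧
      Nat.card (SelG ρ T T L) * Nat.card (H1 (lvlS T) (dualRho (cycloChar p) ρ)) ≤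
        Nat.card (Sha1S T ρ) *
          Nat.card (SelG (dualRho (cycloChar p) ρ) T T (fun v => perp dat hMQ v (L v))) *
          ∏ v ∈ T, Nat.card (L v) := by
  have : ∀ v : ↥T, Finite (L v.1) := fun v => hLfin v.1 v.2
  obtain ⟨hf1, hker⟩ := gw_kerLam T L hsha
  have : Finite (↥(SelG ρ T T L) ⧸ (gwLam T L).ker) :=
    Finite.of_equiv _ (QuotientAddGroup.quotientKerEquivRange (gwLam T L)).toEquiv.symm
  have hfinX : Finite ↥(SelG ρ T T L) := by
    apply Nat.finite_of_card_ne_zero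
    rw [AddSubgroup.card_eq_card_quotient_mul_card_addSubgroup (gwLam T L).ker]
    exact Nat.mul_ne_zero Nat.card_pos.ne' Nat.card_pos.ne'
  refine ⟨hfinX, ?_⟩
  have hcA : Nat.card (∀ v : ↥T, ↥(L v.1)) = ∏ v ∈ T, Nat.card (L v) := by
    rw [Nat.card_pi, Finset.prod_coe_sort T (fun v => Nat.card (L v))]
  have hpA : ∀ a : (∀ v : ↥T, ↥(L v.1)), p • a = 0 := fun a =>
    funext fun v => Subtype.ext (isoAux_nsmul_H1 _ _ p hM.tors (a v).1)
  have hmain := abs_count (Y := H1 (lvlS T) (dualRho (cycloChar p) ρ)) hpA (gwLam T L)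
    (gwP dat hMQ T L) (gw_orth dat hMQ hpT hM L)
  rw [hcA] at hmain
  exact hmain.trans (Nat.mul_le_mul_right _ (Nat.mul_le_mul hker (gw_kerP dat hMQ T L hfin')))

end Fermat.Agent.S56
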