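import Fermat.Agent.S55.Coh.Defs

/-!
# S56 / GW / Cup : the cup product `H¹(A) × H¹(B) → H²(C)` of an equivariant pairing      key `S56/GW-CUP` (~200 lines, only `S55/Coh/Defs.lean`)

Conventions of `S55/Coh/Defs.lean`.  `β : A →+ B →+ C` with `β (g a) (g b) = g (β a b)`;  `(a ∪ b)(g, h) = β (a g) (g (b h))`.
* `cupF_mem_Z2` : LC2: `a`, `b` constant mod `U_a`, `U_b`, `ρB` trivial on `U₀` (`hB`); take `W ≤ U_a ⊓ U_b ⊓ U₀` (`𝓛.inter` twice): `ρB (g * u) = ρB g * ρB u = ρB g`.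
  Cocycle identity: LHS `β (a (g h)) (g h (b j)) + β (a g) (g (b h)) = β (g (a h)) (g (h (b j))) + β (a g) (g h (b j)) + β (a g) (g (b h))`,
  RHS `g (β (a h) (h (b j))) + β (a g) (g (b (h j))) = β (g (a h)) (g (h (b j))) + β (a g) (g (h (b j)) + g (b h))`.
* `cupF_mem_B2_left`  : `a = d0 ρA m` : `cupF = d1 ρC x`, `x g = β m (b g)`.
* `cupF_mem_B2_right` : `b = d0 ρB n` : `cupF = d1 ρC x`, `x g = - β (a g) (g n)` (LC1: as above).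
* `cupZ`, `cup` : `AddMonoidHom.mk₂`-style + `QuotientAddGroup.lift` twice (with `AddMonoidHom.flip`).
* `H2map_cup` : naturality for `r : H →* G` (same `β`): on cocycles both sides are `fun h h' => β (a (r h)) (ρB (r h) (b (r h')))`: `rfl` after `H1.mk_surjective`.
-/

set_option autoImplicit false

noncomputable section

namespace Fermat.Agent.S56

open Fermat.Agent.S55

section Cup

variable {G : Type*} [Group G] {𝓛 : Lvl G} {A B C : Type*} [AddCommGroup A] [AddCommGroup B]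
  [AddCommGroup C] (ρA : G →* AddMonoid.End A) (ρB : G →* AddMonoid.End B)
  (ρC : G →* AddMonoid.End C)

/-- equivariant pairings -/
def IsPair (β : A →+ B →+ C) : Prop := ∀ g a b, β (ρA g a) (ρB g b) = ρC g (β a b)

/-- `ρ` is trivial on some level -/
def TrivLvl (𝓛 : Lvl G) (ρ : G →* AddMonoid.End B) : Prop := ∃ U ∈ 𝓛.sets, ∀ u ∈ U, ρ u = 1

/-- the cup product of cochains -/
def cupF (β : A →+ B →+ C) (a : G → A) (b : G → B) : G → G → C :=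
  fun g h => β (a g) (ρB g (b h))

variable {ρA ρB ρC} {β : A →+ B →+ C}

theorem cupF_mem_Z2 (hβ : IsPair ρA ρB ρC β) (hB : TrivLvl 𝓛 ρB) {a : G → A} {b : G → B}
    (ha : a ∈ Z1 𝓛 ρA) (hb : b ∈ Z1 𝓛 ρB) : cupF ρB β a b ∈ Z2 𝓛 ρC := by
  obtain ⟨⟨Ua, hUa, ha1⟩, ha2⟩ := ha
  obtain ⟨⟨Ub, hUb, hb1⟩, hb2⟩ := hb
  obtain ⟨U0, hU0, h0⟩ := hB
  obtain ⟨W1, hW1, hW1le⟩ := 𝓛.inter Ua hUa Ub hUb
  obtain ⟨W, hW, hWle⟩ := 𝓛.inter W1 hW1 U0 hU0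
  refine ⟨⟨W, hW, fun g h u hu u' hu' => ?_⟩, fun g h j => ?_⟩
  · simp only [cupF]
    rw [ha1 g u (hW1le (hWle hu).1).1, hb1 h u' (hW1le (hWle hu').1).2, map_mul,
      h0 u (hWle hu).2, mul_one]
  · simp only [cupF]
    rw [ha2 g h, hb2 h j, map_add, map_add, AddMonoidHom.add_apply, map_mul,
      AddMonoid.End.coe_mul, Function.comp_apply, ← hβ g, map_add]
    abel

theorem cupF_mem_B2_left (hβ : IsPair ρA ρB ρC β) {a : G → A} {b : G → B}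
    (ha : a ∈ B1 𝓛 ρA) (hb : b ∈ Z1 𝓛 ρB) : cupF ρB β a b ∈ B2 𝓛 ρC := by
  obtain ⟨-, m, rfl⟩ := ha
  obtain ⟨hb1, hb2⟩ := hb
  refine ⟨fun g => β m (b g), hb1.comp (β m), ?_⟩
  funext g h
  simp only [cupF, d0_apply, d1_apply]
  rw [hb2 g h, map_sub, AddMonoidHom.sub_apply, hβ g, map_add]
  abel

theorem cupF_mem_B2_right (hβ : IsPair ρA ρB ρC β) (hB : TrivLvl 𝓛 ρB) {a : G → A} {b : G → B}
    (ha : a ∈ Z1 𝓛 ρA) (hb : b ∈ B1 𝓛 ρB) : cupF ρB β a b ∈ B2 𝓛 ρC := by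
  obtain ⟨⟨Ua, hUa, ha1⟩, ha2⟩ := ha
  obtain ⟨-, n, rfl⟩ := hb
  obtain ⟨U0, hU0, h0⟩ := hB
  obtain ⟨W, hW, hWle⟩ := 𝓛.inter Ua hUa U0 hU0
  refine ⟨fun g => - β (a g) (ρB g n), ⟨W, hW, fun g u hu => ?_⟩, ?_⟩
  · simp only []
    rw [ha1 g u (hWle hu).1, map_mul, h0 u (hWle hu).2, mul_one]
  · funext g h
    simp only [cupF, d0_apply, d1_apply]
    rw [ha2 g h, map_neg, ← hβ g, map_sub, map_sub, map_add, AddMonoidHom.add_apply, map_mul,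
      AddMonoid.End.coe_mul, Function.comp_apply]
    abel

/-- the cup product on cocycles, with values in `H²` -/
def cupZ (hβ : IsPair ρA ρB ρC β) (hB : TrivLvl 𝓛 ρB) :
    ↥(Z1 𝓛 ρA) →+ ↥(Z1 𝓛 ρB) →+ H2 𝓛 ρC :=
  AddMonoidHom.mk' (fun a => AddMonoidHom.mk'
    (fun b => H2.mk 𝓛 ρC ⟨cupF ρB β a b, cupF_mem_Z2 hβ hB a.2 b.2⟩)
    (fun b b' => by
      rw [← map_add]
      congr 1
      apply Subtype.ext
      funext g h
      simp [cupF]))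
    (fun a a' => by
      ext b
      simp only [AddMonoidHom.mk'_apply, AddMonoidHom.add_apply]
      rw [← map_add]
      congr 1
      apply Subtype.ext
      funext g h
      simp [cupF])

theorem cupZ_apply (hβ : IsPair ρA ρB ρC β) (hB : TrivLvl 𝓛 ρB) (a : ↥(Z1 𝓛 ρA))
    (b : ↥(Z1 𝓛 ρB)) :
    cupZ hβ hB a b = H2.mk 𝓛 ρC ⟨cupF ρB β a b, cupF_mem_Z2 hβ hB a.2 b.2⟩ := rfl

/-- the cup product `H¹(A) × H¹(B) → H²(C)` -/
def cup (hβ : IsPair ρA ρB ρC β) (hB : TrivLvl 𝓛 ρB) : H1 𝓛 ρA →+ H1 𝓛 ρB →+ H2 𝓛 ρC :=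
  QuotientAddGroup.lift _
    (QuotientAddGroup.lift _ (cupZ hβ hB).flip (fun b hb => by
      ext a
      rw [AddMonoidHom.flip_apply, cupZ_apply, AddMonoidHom.zero_apply, H2.mk_eq_zero_iff]
      exact cupF_mem_B2_right hβ hB a.2 (AddSubgroup.mem_addSubgroupOf.1 hb))).flip
    (fun a ha => by
      ext b
      change cupZ hβ hB a b = 0
      rw [cupZ_apply, H2.mk_eq_zero_iff]
      exact cupF_mem_B2_left hβ (AddSubgroup.mem_addSubgroupOf.1 ha) b.2)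

theorem cup_mk (hβ : IsPair ρA ρB ρC β) (hB : TrivLvl 𝓛 ρB) (a : ↥(Z1 𝓛 ρA)) (b : ↥(Z1 𝓛 ρB)) :
    cup hβ hB (H1.mk 𝓛 ρA a) (H1.mk 𝓛 ρB b) =
      H2.mk 𝓛 ρC ⟨cupF ρB β a b, cupF_mem_Z2 hβ hB a.2 b.2⟩ := rfl

end Cup

section Res

variable {G H : Type*} [Group G] [Group H] (𝓛 : Lvl G) {A B C : Type*} [AddCommGroup A]
  [AddCommGroup B] [AddCommGroup C] {ρA : G →* AddMonoid.End A} {ρB : G →* AddMonoid.End B}
  {ρC : G →* AddMonoid.End C} {β : A →+ B →+ C}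

theorem IsPair.res (hβ : IsPair ρA ρB ρC β) (r : H →* G) :
    IsPair (ρA.comp r) (ρB.comp r) (ρC.comp r) β := fun h a b => hβ (r h) a b

theorem TrivLvl.res {𝓛 : Lvl G} (hB : TrivLvl 𝓛 ρB) (r : H →* G) :
    TrivLvl (𝓛.comap r) (ρB.comp r) := by
  obtain ⟨U, hU, h⟩ := hB
  exact ⟨_, ⟨U, hU, rfl⟩, fun u hu => h (r u) hu⟩

/-- restriction commutes with cup products -/
theorem res2_cup (hβ : IsPair ρA ρB ρC β) (hB : TrivLvl 𝓛 ρB) (r : H →* G) (x : H1 𝓛 ρA)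
    (y : H1 𝓛 ρB) :
    res2 𝓛 ρC r (cup hβ hB x y) = cup (hβ.res r) (hB.res r) (res1 𝓛 ρA r x) (res1 𝓛 ρB r y) := by
  obtain ⟨a, rfl⟩ := H1.mk_surjective _ _ x
  obtain ⟨b, rfl⟩ := H1.mk_surjective _ _ y
  rfl

end Res

end Fermat.Agent.S56
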