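import Fermat.Agent.S56.GW.Cup
import Fermat.Agent.S56.Sel

/-!
# S56 / GW / LocPair : the local pairings `H¹(D_v, A) × H¹(D_v, A') → 𝔽_p`, reciprocity, unramified classes      key `S56/GW-LP` (~200 lines)

`A' = (A →+ ZMod p)` with `dualRho (cycloChar p) ρ`;  `evP a φ = φ a`;  `lp dat hM v x y = t_v (x ∪ y)`.
* `isPair_evP` : `dualRho_apply`, `rhoChi_apply`; `ρ g⁻¹ (ρ g a) = a` (`← AddMonoid.End.mul_apply`, `← map_mul`, `inv_mul_cancel`, `map_one`).
* `trivLvl_dual` : `(hM.dual (S55.smooth_rhoT p)).exists_trivial` (`S55/A/Mod.lean`, `S55/A/DualMod.lean`; `smooth_rhoT` = `S55.D.smooth_rhoT_lvlQ_aux p`).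
* `lp_recip` : `dat.recip (cup (isPair_evP ρ) (trivLvl_dual hM) x y)` + `res2_cup` (`finsum_congr`; `loc1 = res1 lvlQ _ (Dq v).subtype` by definition).
* `finite_lp` : `S55.D.finite_loc2 dat (rhoChi (cycloChar p)) _ (cup .. x y)` (`FinMod` of `ZMod p`), the support of `lp` is contained in it.
* `lp_ur` : `x = [a]`, `y = [b]`, `a`, `b` vanishing on `IqD v`.  `z = cupF _ evP a b` satisfies `z (g * i) (h * i') = z g h` (`a (g * i) = ρ g (a i) + a g = a g`; `ρ' (g * i) = ρ' g` because `ρ' i = 1`: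
  `S55.D.rho_Iq` for `ρ' `, which is `S`-smooth: `(hM.dual (S55.D.smooth_lvlS_rhoT hpS)).smooth`).  `S55.D.H2ur_eq_zero v (Tv p v) ..` : `z = d1 b'`, `b'` LC1, so `z ∈ B2`, `H2.mk_eq_zero_iff`, `map_zero`.
-/

set_option autoImplicit false

open Fermat.Agent.S53 Fermat.Agent.S55 Fermat.Agent.S55.D ExtCitation

noncomputable section

namespace Fermat.Agent.S56

variable {p : ℕ} [Fact p.Prime] {A : Type} [AddCommGroup A] (ρ : GQ →* AddMonoid.End A)

/-- the evaluation pairing `A × A' → ZMod p` -/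
def evP (p : ℕ) (A : Type) [AddCommGroup A] : A →+ (A →+ ZMod p) →+ ZMod p :=
  (AddMonoidHom.id (A →+ ZMod p)).flip

@[simp] theorem evP_apply (a : A) (φ : A →+ ZMod p) : evP p A a φ = φ a := rfl

theorem isPair_evP :
    IsPair ρ (dualRho (cycloChar p) ρ) (rhoChi (cycloChar p)) (evP p A) := by
  intro g a φ
  rw [evP_apply, evP_apply, dualRho_apply, rhoChi_apply]
  congr 2
  rw [← End_mul_apply, ← map_mul, inv_mul_cancel, map_one]
  rfl

variable {ρ}

theorem trivLvl_dual (hM : FinMod p lvlQ ρ) : TrivLvl lvlQ (dualRho (cycloChar p) ρ) := by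
  obtain ⟨U, hU, -, h⟩ := (hM.dual (smooth_rhoT_lvlQ_aux p)).exists_trivial
  exact ⟨U, hU, fun u hu => by ext1 a; exact h u hu a⟩

/-- the local pairing -/
def lp (dat : Datum p lvlQ (cycloChar p) Dq) (hM : FinMod p lvlQ ρ) (v : Nat.Primes) :
    H1 (lvlD v) (rv Dq ρ v) →+ H1 (lvlD v) (rv Dq (dualRho (cycloChar p) ρ) v) →+ ZMod p :=
  AddMonoidHom.compr₂ (cup ((isPair_evP ρ).res (Dq v).subtype) ((trivLvl_dual hM).res (Dq v).subtype))
    (dat.t v)

/-- the exact annihilator of a local condition -/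
def perp (dat : Datum p lvlQ (cycloChar p) Dq) (hM : FinMod p lvlQ ρ) (v : Nat.Primes)
    (L : AddSubgroup (H1 (lvlD v) (rv Dq ρ v))) :
    AddSubgroup (H1 (lvlD v) (rv Dq (dualRho (cycloChar p) ρ) v)) where
  carrier := {y | ∀ x ∈ L, lp dat hM v x y = 0}
  add_mem' := fun ha hb x hx => by rw [map_add, ha x hx, hb x hx, add_zero]
  zero_mem' := fun x _ => map_zero _
  neg_mem' := fun ha x hx => by rw [map_neg, ha x hx, neg_zero]

theorem mem_perp {dat : Datum p lvlQ (cycloChar p) Dq} {hM : FinMod p lvlQ ρ} {v : Nat.Primes}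
    {L : AddSubgroup (H1 (lvlD v) (rv Dq ρ v))}
    {y : H1 (lvlD v) (rv Dq (dualRho (cycloChar p) ρ) v)} :
    y ∈ perp dat hM v L ↔ ∀ x ∈ L, lp dat hM v x y = 0 := Iff.rfl

/-- the value of `lp` on classes of cocycles -/
theorem lp_mk (dat : Datum p lvlQ (cycloChar p) Dq) (hM : FinMod p lvlQ ρ) (v : Nat.Primes)
    (a : ↥(Z1 (lvlD v) (rv Dq ρ v))) (b : ↥(Z1 (lvlD v) (rv Dq (dualRho (cycloChar p) ρ) v))) :
    lp dat hM v (H1.mk _ _ a) (H1.mk _ _ b) =
      dat.t v (H2.mk _ _ ⟨cupF (rv Dq (dualRho (cycloChar p) ρ) v) (evP p A) a b,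
        cupF_mem_Z2 ((isPair_evP ρ).res (Dq v).subtype) ((trivLvl_dual hM).res (Dq v).subtype)
          a.2 b.2⟩) := rfl

/-- **reciprocity** -/
theorem lp_recip (dat : Datum p lvlQ (cycloChar p) Dq) (hM : FinMod p lvlQ ρ) (x : H1 lvlQ ρ)
    (y : H1 lvlQ (dualRho (cycloChar p) ρ)) :
    ∑ᶠ v, lp dat hM v (loc1 ρ v x) (loc1 (dualRho (cycloChar p) ρ) v y) = 0 := by
  have h := dat.recip (cup (isPair_evP ρ) (trivLvl_dual hM) x y)
  rw [← h]
  apply finsum_congr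
  intro v
  rw [res2_cup]
  rfl

theorem finite_lp (dat : Datum p lvlQ (cycloChar p) Dq) (hM : FinMod p lvlQ ρ) (x : H1 lvlQ ρ)
    (y : H1 lvlQ (dualRho (cycloChar p) ρ)) :
    {v | lp dat hM v (loc1 ρ v x) (loc1 (dualRho (cycloChar p) ρ) v y) ≠ 0}.Finite := by
  have hT : FinMod p lvlQ (rhoChi (cycloChar p)) :=
    ⟨inferInstance, fun a => by rw [nsmul_eq_mul, ZMod.natCast_self, zero_mul],
      smooth_rhoT_lvlQ_aux p⟩
  refine (finite_loc2 dat (rhoChi (cycloChar p)) hT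
    (cup (isPair_evP ρ) (trivLvl_dual hM) x y)).subset ?_
  intro v hv h0
  apply hv
  have h1 := res2_cup lvlQ (isPair_evP ρ) (trivLvl_dual hM) (Dq v).subtype x y
  have h2 : lp dat hM v (loc1 ρ v x) (loc1 (dualRho (cycloChar p) ρ) v y) =
      dat.t v (res2 lvlQ (rhoChi (cycloChar p)) (Dq v).subtype
        (cup (isPair_evP ρ) (trivLvl_dual hM) x y)) := by
    rw [h1]
    rfl
  rw [h2]
  have h3 : res2 lvlQ (rhoChi (cycloChar p)) (Dq v).subtype
      (cup (isPair_evP ρ) (trivLvl_dual hM) x y) = 0 := h0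
  rw [h3, map_zero]

/-- unramified classes are orthogonal -/
theorem lp_ur (dat : Datum p lvlQ (cycloChar p) Dq) (hM : FinMod p lvlQ ρ)
    {S : Finset Nat.Primes} (hpS : pPrime p ∈ S) (hMS : FinMod p (lvlS S) ρ) {v : Nat.Primes}
    (hv : v ∉ S) {x : H1 (lvlD v) (rv Dq ρ v)} (hx : x ∈ H1ur v (rv Dq ρ v))
    {y : H1 (lvlD v) (rv Dq (dualRho (cycloChar p) ρ) v)}
    (hy : y ∈ H1ur v (rv Dq (dualRho (cycloChar p) ρ) v)) : lp dat hM v x y = 0 := by
  obtain ⟨a, rfl, ha⟩ := hx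
  obtain ⟨b, rfl, hb⟩ := hy
  rw [lp_mk]
  have hz := cupF_mem_Z2 ((isPair_evP (p := p) ρ).res (Dq v).subtype)
    ((trivLvl_dual hM).res (Dq v).subtype) a.2 b.2
  have hρ' : ∀ i ∈ IqD v, rv Dq (dualRho (cycloChar p) ρ) v i = 1 := fun i hi =>
    rho_Iq (hMS.dual (smooth_lvlS_rhoT p hpS)).smooth hv i hi
  obtain ⟨b', hb', -, hzb⟩ := H2ur_eq_zero v (Tv p v)
    ((smooth_rhoT_lvlQ_aux p).res lvlQ (Dq v).subtype)
    (fun i hi => rho_Iq (smooth_lvlS_rhoT p hpS) hv i hi)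
    (cupF (rv Dq (dualRho (cycloChar p) ρ) v) (evP p A) a b) hz (by
      intro g h i hi i' hi'
      simp only [cupF]
      rw [a.2.2 g i, ha i hi, map_zero, zero_add, b.2.2 h i', hb i' hi', map_zero, zero_add,
        map_mul, hρ' i hi, mul_one])
  have h0 : H2.mk (lvlD v) (Tv p v)
      ⟨cupF (rv Dq (dualRho (cycloChar p) ρ) v) (evP p A) a b, hz⟩ = 0 := by
    rw [H2.mk_eq_zero_iff]
    exact ⟨b', hb', hzb⟩
  exact (congrArg (dat.t v) h0).trans (map_zero _)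

end Fermat.Agent.S56
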